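/-
S15lib / LocN / Basic  (helper4)  — Project E, block LOCN (local analysis at the level `N`).

Abstract part: a finite `G_ℚ`-module `V` of `r`-power order and finite level on which the inertia
group `I` of a place over `q ≠ r` acts unipotently of level two (`(σ - 1)² = 0`).

* `IsUnip`, `IsUnip.pow_apply` : `σ ^ m = 1 + m (σ - 1)`;
* `exists_tame_generator`      : the image of `I` in `End V` is generated by one `ρ τ`
                                 (tame inertia is cyclic: `S56lib.Tame.exists_inertia_generator`);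
* `card_le_card_fixed_sq`      : `|V| ≤ |V^I|²`.
-/
import Mathlib
import Fermat.Agent.S56lib.Tame.Main

set_option autoImplicit false
set_option linter.unusedSectionVars false
set_option linter.style.haveILetI false

noncomputable section

namespace Fermat.Agent.S15lib.LocN

open ValuationSubring

local notation "Ω" => AlgebraicClosure ℚ
local notation "Γℚ" => (AlgebraicClosure ℚ ≃ₐ[ℚ] AlgebraicClosure ℚ)

section Unip

variable {V : Type*} [AddCommGroup V]

/-- `(φ - 1)² = 0`, written without subtraction of endomorphisms. -/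
def IsUnip (φ : AddMonoid.End V) : Prop := ∀ v : V, φ (φ v) - (φ v + φ v) + v = 0

theorem end_mul_apply (f g : AddMonoid.End V) (v : V) : (f * g) v = f (g v) := rfl

theorem IsUnip.apply_apply {φ : AddMonoid.End V} (h : IsUnip φ) (v : V) :
    φ (φ v) - φ v = φ v - v := by
  have := h v
  have h2 : φ (φ v) = φ v + φ v - v := by
    rw [sub_add_eq_add_sub, sub_eq_zero] at this
    rw [eq_sub_iff_add_eq]; exact this
  rw [h2]; abel

/-- `φ ^ m = 1 + m (φ - 1)` -/
theorem IsUnip.pow_apply {φ : AddMonoid.End V} (h : IsUnip φ) (m : ℕ) (v : V) :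
    (φ ^ m) v = v + m • (φ v - v) := by
  induction m with
  | zero => simp
  | succ m ih =>
    rw [pow_succ', end_mul_apply, ih, map_add, map_nsmul, map_sub, h.apply_apply, succ_nsmul]
    abel

/-- on a group of exponent `e`, a unipotent endomorphism has order dividing `e` -/
theorem IsUnip.pow_eq_one {φ : AddMonoid.End V} (h : IsUnip φ) {e : ℕ} (he : ∀ v : V, e • v = 0) :
    φ ^ e = 1 := by
  ext v
  rw [h.pow_apply, he, add_zero]
  rfl

/-- a vector fixed by `φ` is fixed by all powers -/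
theorem pow_apply_of_fixed {φ : AddMonoid.End V} {v : V} (hv : φ v = v) (j : ℕ) : (φ ^ j) v = v := by
  induction j with
  | zero => rfl
  | succ j ih => rw [pow_succ', end_mul_apply, ih, hv]

end Unip

section Tame

variable {V : Type*} [AddCommGroup V] {P : ValuationSubring Ω} {q : ℕ}

/-- **the image of the inertia group is cyclic** on a module of `r`-power exponent with unipotent
inertia, `r ≠ q`. -/
theorem exists_tame_generator (hq : q.Prime) (hP : P.LiesOverPrime q) (ρ : Γℚ →* AddMonoid.End V)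
    (hfin : ∃ L : IntermediateField ℚ Ω, FiniteDimensional ℚ L ∧
      ∀ σ : Γℚ, (∀ x ∈ L, σ x = x) → ρ σ = 1)
    {r : ℕ} (hr : r.Prime) (hrq : r ≠ q) (hV : ∃ n : ℕ, ∀ v : V, r ^ n • v = 0)
    (hU : ∀ σ ∈ P.inertiaSubgroupIn ℚ, IsUnip (ρ σ)) :
    ∃ τ ∈ P.inertiaSubgroupIn ℚ, ∀ σ ∈ P.inertiaSubgroupIn ℚ, ∃ j : ℕ, ρ σ = ρ τ ^ j := by
  obtain ⟨n, hn⟩ := hV
  exact S56lib.Tame.exists_inertia_generator hq hP ρ hfin hr hrq
    fun σ hσ => ⟨n, (hU σ hσ).pow_eq_one hn⟩

/-- the fixed vectors of the inertia group -/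
def fixedI (P : ValuationSubring Ω) (ρ : Γℚ →* AddMonoid.End V) : AddSubgroup V where
  carrier := {v | ∀ σ ∈ P.inertiaSubgroupIn ℚ, ρ σ v = v}
  zero_mem' := fun σ _ => map_zero _
  add_mem' := fun {a b} ha hb σ hσ => by rw [map_add, ha σ hσ, hb σ hσ]
  neg_mem' := fun {a} ha σ hσ => by rw [map_neg, ha σ hσ]

theorem mem_fixedI {ρ : Γℚ →* AddMonoid.End V} {v : V} :
    v ∈ fixedI P ρ ↔ ∀ σ ∈ P.inertiaSubgroupIn ℚ, ρ σ v = v := Iff.rfl

/-- `φ - 1` as an additive endomorphism -/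
def subOne (φ : AddMonoid.End V) : V →+ V where
  toFun v := φ v - v
  map_zero' := by simp
  map_add' a b := by rw [map_add]; abel

theorem subOne_apply (φ : AddMonoid.End V) (v : V) : subOne φ v = φ v - v := rfl

theorem IsUnip.subOne_subOne {φ : AddMonoid.End V} (h : IsUnip φ) (v : V) :
    subOne φ (subOne φ v) = 0 := by
  rw [subOne_apply, subOne_apply, map_sub, h.apply_apply, sub_self]

/-- with a tame generator `τ`, the fixed vectors are the kernel of `τ - 1` -/
theorem fixedI_eq_ker {ρ : Γℚ →* AddMonoid.End V} {τ : Γℚ} (hτ : τ ∈ P.inertiaSubgroupIn ℚ)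
    (hgen : ∀ σ ∈ P.inertiaSubgroupIn ℚ, ∃ j : ℕ, ρ σ = ρ τ ^ j) :
    fixedI P ρ = (subOne (ρ τ)).ker := by
  ext v
  rw [mem_fixedI, AddMonoidHom.mem_ker, subOne_apply, sub_eq_zero]
  constructor
  · intro h; exact h τ hτ
  · intro h σ hσ
    obtain ⟨j, hj⟩ := hgen σ hσ
    rw [hj]; exact pow_apply_of_fixed h j

/-- **`|V| ≤ |V^I|²`** -/
theorem card_le_card_fixed_sq [Finite V] (hq : q.Prime) (hP : P.LiesOverPrime q)
    (ρ : Γℚ →* AddMonoid.End V)
    (hfin : ∃ L : IntermediateField ℚ Ω, FiniteDimensional ℚ L ∧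
      ∀ σ : Γℚ, (∀ x ∈ L, σ x = x) → ρ σ = 1)
    {r : ℕ} (hr : r.Prime) (hrq : r ≠ q) (hV : ∃ n : ℕ, ∀ v : V, r ^ n • v = 0)
    (hU : ∀ σ ∈ P.inertiaSubgroupIn ℚ, IsUnip (ρ σ)) :
    Nat.card V ≤ Nat.card (fixedI P ρ) ^ 2 := by
  obtain ⟨τ, hτ, hgen⟩ := exists_tame_generator hq hP ρ hfin hr hrq hV hU
  rw [fixedI_eq_ker hτ hgen]
  set ψ := subOne (ρ τ) with hψ
  have hle : ψ.range ≤ ψ.ker := by
    rintro _ ⟨v, rfl⟩
    rw [AddMonoidHom.mem_ker]
    exact (hU τ hτ).subOne_subOne v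
  have h1 : Nat.card V = Nat.card (V ⧸ ψ.ker) * Nat.card ψ.ker :=
    AddSubgroup.card_eq_card_quotient_mul_card_addSubgroup ψ.ker
  have h2 : Nat.card (V ⧸ ψ.ker) = Nat.card ψ.range :=
    Nat.card_congr (QuotientAddGroup.quotientKerEquivRange ψ).toEquiv
  have h3 : Nat.card ψ.range ≤ Nat.card ψ.ker :=
    Nat.card_le_card_of_injective (AddSubgroup.inclusion hle) (AddSubgroup.inclusion_injective hle)
  rw [h1, h2, sq]
  exact Nat.mul_le_mul_right _ h3

end Tame

end Fermat.Agent.S15lib.LocN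

end
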