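/-
S15lib / LocN / Tors  (helper4)  — Project E, block LOCN.

The abstract statements of `LocN/Basic.lean` for Galois-stable finite subgroups of `J₀(N)(ℚ̄)`:

* `unipTors`              : `(σ - 1)² = 0` on `J₀(N)[r^k]` for `σ` in the inertia at `q ∥ N`, `q ≠ r`
                            (project LSb, on main);
* `galEnd W hW`           : the action of `G_ℚ` on a Galois-stable subgroup `W` of `J₀(N)(ℚ̄)`;
* `galEnd_finiteLevel`    : it has finite level if `W` is finite;
* `card_le_card_fixed_sq` : `|W| ≤ |W^I|²` for a finite Galois-stable subgroup of `r`-power exponent,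
                            `I` the inertia group of a place over `q ∥ N`, `q ≠ r`;
* `exists_tame_generator` : the image of `I` in `End W` is cyclic.
-/
import Mathlib
import Fermat.Agent.S15lib.LocN.Basic
import Fermat.Agent.S34lib.Unip.Interface
import Fermat.Agent.LSb.MainX
import Fermat.Agent.LSb.Unit.Final
import Fermat.Agent.S29lib.GH.OpenStab

set_option autoImplicit false
set_option linter.unusedSectionVars false
set_option linter.style.haveILetI false

noncomputable section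

namespace Fermat.Agent.S15lib.LocN

open ValuationSubring ModularCurve Fermat.Agent.S29lib

local notation "Ω" => AlgebraicClosure ℚ
local notation "Γℚ" => (AlgebraicClosure ℚ ≃ₐ[ℚ] AlgebraicClosure ℚ)

/-- **(U) on torsion** (project LSb): unipotent inertia at every `q ∥ N`, `q ≠ r`. -/
theorem unipTors (N r : ℕ) [NeZero N] (hr : r.Prime) : S34lib.UnipTors N r :=
  LSb.unipTors LSb.Unit.instanceStatement_goodPair N r hr

variable {N : ℕ} [NeZero N]

/-- the action of `G_ℚ` on a Galois-stable subgroup of `J₀(N)(ℚ̄)` -/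
def galEnd (W : AddSubgroup (JZero N)) (hW : ∀ (σ : Γℚ) (x : JZero N), x ∈ W → σ • x ∈ W) :
    Γℚ →* AddMonoid.End W where
  toFun σ :=
    { toFun := fun w => ⟨σ • (w : JZero N), hW σ w w.2⟩
      map_zero' := Subtype.ext (smul_zero σ)
      map_add' := fun a b => Subtype.ext (smul_add σ (a : JZero N) b) }
  map_one' := by
    ext w
    exact one_smul Γℚ (w : JZero N)
  map_mul' σ τ := by
    ext w
    exact mul_smul σ τ (w : JZero N)

@[simp]
theorem galEnd_apply (W : AddSubgroup (JZero N))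
    (hW : ∀ (σ : Γℚ) (x : JZero N), x ∈ W → σ • x ∈ W) (σ : Γℚ) (w : W) :
    ((galEnd W hW σ w : W) : JZero N) = σ • (w : JZero N) := rfl

/-- finite level of the action on a finite Galois-stable subgroup -/
theorem galEnd_finiteLevel (W : AddSubgroup (JZero N))
    (hW : ∀ (σ : Γℚ) (x : JZero N), x ∈ W → σ • x ∈ W) [Finite W] :
    ∃ L : IntermediateField ℚ Ω, FiniteDimensional ℚ L ∧
      ∀ σ : Γℚ, (∀ x ∈ L, σ x = x) → galEnd W hW σ = 1 := by
  have hS : GH.FiniteLevel (⋂ w : W, {σ : Γℚ | σ • (w : JZero N) = w}) :=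
    GH.finiteLevel_iInter _ fun w => GH.finiteLevel_fix_class N (w : JZero N)
  obtain ⟨L, hL, h⟩ := hS
  refine ⟨L, hL, fun σ hσ => ?_⟩
  have := h σ hσ
  simp only [Set.mem_iInter, Set.mem_ofPred_eq] at this
  ext w
  exact this w

/-- unipotence of the inertia on a subgroup of `J₀(N)[r^k]` -/
theorem isUnip_galEnd {q r : ℕ} (hq : q.Prime) (hr : r.Prime) (hqr : q ≠ r) (hqN : q ∣ N)
    (hq2 : ¬ q ^ 2 ∣ N) {P : ValuationSubring Ω} (hP : P.LiesOverPrime q)
    (W : AddSubgroup (JZero N)) (hW : ∀ (σ : Γℚ) (x : JZero N), x ∈ W → σ • x ∈ W)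
    {k : ℕ} (hk : ∀ x ∈ W, x ∈ Tors N (r ^ k)) {σ : Γℚ} (hσ : σ ∈ P.inertiaSubgroupIn ℚ) :
    IsUnip (galEnd W hW σ) := by
  intro w
  apply Subtype.ext
  have := unipTors N r hr q hq hqr hqN hq2 P hP σ hσ k (w : JZero N) (hk _ w.2)
  simpa using this

/-- a subgroup of `J₀(N)[r^k]` has exponent `r^k` -/
theorem exponent_of_le_tors {r k : ℕ} (W : AddSubgroup (JZero N))
    (hk : ∀ x ∈ W, x ∈ Tors N (r ^ k)) : ∃ n : ℕ, ∀ w : W, r ^ n • w = 0 := by
  refine ⟨k, fun w => Subtype.ext ?_⟩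
  have := hk _ w.2
  rw [Submodule.mem_torsionBy_iff] at this
  rw [AddSubgroup.coe_nsmul, AddSubgroup.coe_zero, ← natCast_zsmul]
  exact_mod_cast this

variable {q r : ℕ} (hq : q.Prime) (hr : r.Prime) (hqr : q ≠ r) (hqN : q ∣ N) (hq2 : ¬ q ^ 2 ∣ N)
  {P : ValuationSubring Ω} (hP : P.LiesOverPrime q)
  (W : AddSubgroup (JZero N)) (hW : ∀ (σ : Γℚ) (x : JZero N), x ∈ W → σ • x ∈ W) [Finite W]
  {k : ℕ} (hk : ∀ x ∈ W, x ∈ Tors N (r ^ k))

include hq hr hqr hqN hq2 hP hW hk

/-- **the image of the inertia at `q ∥ N` in `End W` is cyclic** -/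
theorem exists_tame_generator_tors :
    ∃ τ ∈ P.inertiaSubgroupIn ℚ, ∀ σ ∈ P.inertiaSubgroupIn ℚ, ∃ j : ℕ, ∀ x ∈ W,
      σ • x = (τ ^ j) • x := by
  obtain ⟨τ, hτ, h⟩ := exists_tame_generator hq hP (galEnd W hW) (galEnd_finiteLevel W hW) hr
    hqr.symm (exponent_of_le_tors W hk)
    (fun σ hσ => isUnip_galEnd hq hr hqr hqN hq2 hP W hW hk hσ)
  refine ⟨τ, hτ, fun σ hσ => ?_⟩
  obtain ⟨j, hj⟩ := h σ hσ
  refine ⟨j, fun x hx => ?_⟩
  have hj' : galEnd W hW σ = galEnd W hW (τ ^ j) := by rw [hj, map_pow]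
  exact congrArg (fun φ : AddMonoid.End W => ((φ ⟨x, hx⟩ : W) : JZero N)) hj'

/-- **`|W| ≤ |W^I|²`** for a finite Galois-stable subgroup `W` of `J₀(N)[r^k]` and the inertia
group `I` of a place over `q ∥ N`, `q ≠ r`. -/
theorem card_le_card_fixed_sq_tors :
    Nat.card W ≤ Nat.card {w : W // ∀ σ ∈ P.inertiaSubgroupIn ℚ, σ • (w : JZero N) = w} ^ 2 := by
  have h := card_le_card_fixed_sq hq hP (galEnd W hW) (galEnd_finiteLevel W hW) hr
    hqr.symm (exponent_of_le_tors W hk)
    (fun σ hσ => isUnip_galEnd hq hr hqr hqN hq2 hP W hW hk hσ)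
  refine h.trans_eq ?_
  congr 1
  refine Nat.card_congr (Equiv.subtypeEquivRight fun w => ?_)
  rw [mem_fixedI]
  refine forall₂_congr fun σ _ => ?_
  rw [Subtype.ext_iff]
  rfl

end Fermat.Agent.S15lib.LocN

end
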