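/-
S15lib / LocN / Unip2  (helper2)  — Project E, block LOCN, item (4).

`(σ - 1)² h = 0` for `σ` in the inertia group at `q ∥ N` (`q ≥ 5`) and EVERY `h ∈ J₀(N)(ℚ̄)` such
that `n h` is inertia-fixed (`n` prime to `q`) — not only for torsion `h`.

Abstract form (`NodalCtx.unipotent_divisor_rel`, `NodalCtx.unipotent_rel`): copy of
`LSb.NodalCtx.unipotent_divisor` with `n D₀ ∈ principal` replaced by `n D₀ - Dy ∈ principal`,
`Dy` a `σ`-stable divisor: `u = σf/f` still has `div u = n (σD₀ - D₀)` and is a Kummer unit.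
-/
import Mathlib
import Fermat.Agent.LSb.MainX
import Fermat.Agent.LSb.Unit.Final
import Fermat.Agent.S36lib.J.ClassDescentBar

set_option autoImplicit false
set_option linter.unusedSectionVars false
set_option linter.style.haveILetI false

noncomputable section

namespace Fermat.Agent.S15lib.LocN

open AlgebraicCurve ModularCurve Fermat.Agent.LSb Fermat.Agent.S29lib

local notation "Qb" => AlgebraicClosure ℚ
local notation "GQ" => (AlgebraicClosure ℚ ≃ₐ[ℚ] AlgebraicClosure ℚ)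

section Abstract

variable {L : Type*} [Field L] {A : ValuationSubring L}
variable {F : Type*} [Field F] [Algebra L F]
variable {F₁ F₂ : Type*} [Field F₁] [Field F₂]
variable [Algebra (IsLocalRing.ResidueField A) F₁] [Algebra (IsLocalRing.ResidueField A) F₂]

local notation "k" => IsLocalRing.ResidueField A

variable {D : NodalDatum A F F₁ F₂} {g g₁ g₂ : ℕ} (C : NodalCtx D g g₁ g₂)

include C

/-- (U) on divisors, relative form: if `n D₀ ~ Dy` with `Dy` a `σ`-stable divisor, then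
`(σ - 1)² D₀` is principal. -/
theorem unipotent_divisor_rel {σ : SemilinearAut L F}
    (hσ : D.IsInertial σ) {n : ℕ} (hn : (n : k) ≠ 0) {D₀ Dy : Divisor L F} (hDy : σ • Dy = Dy)
    (hD₀ : n • D₀ - Dy ∈ Divisor.principal (K := L) (F := F)) :
    σ • (σ • D₀ - D₀) - (σ • D₀ - D₀) ∈ Divisor.principal (K := L) (F := F) := by
  have hcech := C.cechCoreStatement
  have hn0 : n ≠ 0 := by
    rintro rfl
    exact hn (by simp)
  have hnpos : 0 < n := Nat.pos_of_ne_zero hn0
  have hnZ : (n : ℤ) ≠ 0 := by exact_mod_cast hn0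
  obtain ⟨f, hf0, hfdiv⟩ := hD₀
  have hσf0 : σ • f ≠ 0 := by
    rw [SemilinearAut.smul_def]
    exact (map_ne_zero _).2 hf0
  set E₁ : Divisor L F := σ • D₀ - D₀ with hE₁
  set u : F := σ • f * f⁻¹ with hu
  have hu0 : u ≠ 0 := mul_ne_zero hσf0 (inv_ne_zero hf0)
  have hDy' : ∀ P : Place L F, Dy (σ⁻¹ • P) = Dy P := by
    intro P
    have := congrArg (fun E : Divisor L F => E P) hDy
    simpa only [SemilinearAut.divisor_smul_apply] using this
  -- `div u = n E₁`
  have hudiv : ∀ P : Place L F, P.ord u = (n : ℤ) * E₁ P := by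
    intro P
    have e1 : P.ord (σ • f) = (n • D₀ - Dy) (σ⁻¹ • P) := by
      rw [NodalDatum.IsInertial.ord_smul_eq, ← hfdiv]
    have e2 : P.ord f = (n • D₀ - Dy) P := (hfdiv P).symm
    rw [hu, P.ord_mul hσf0 (inv_ne_zero hf0), P.ord_inv, e1, e2, hE₁]
    simp only [Finsupp.sub_apply, Finsupp.smul_apply, SemilinearAut.divisor_smul_apply,
      nsmul_eq_mul, hDy' P]
    ring
  obtain ⟨hb₁, hb₂⟩ := kummerStatement D σ hσ f hf0
  have hKu : IsKummerUnit D n u :=
    ⟨hu0, fun P => ⟨E₁ P, hudiv P⟩, hb₁, hb₂⟩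
  obtain ⟨hKz, hz₁, hz₂⟩ := hσ.isKummerUnit_div hKu
  obtain ⟨Hsub, Heq⟩ := C.twist_eq_one hσ hnpos hKu
  obtain ⟨h, c, hh0, hc0, hz⟩ := hcech n hn _ hKz hz₁ hz₂ Hsub Heq
  have hσu0 : σ • u ≠ 0 := by
    rw [SemilinearAut.smul_def]
    exact (map_ne_zero _).2 hu0
  refine ⟨h, hh0, fun P => ?_⟩
  -- compare orders
  have h1 : P.ord (σ • u * u⁻¹) = (n : ℤ) * P.ord h := by
    rw [hz, P.ord_mul ((map_ne_zero _).2 hc0) (pow_ne_zero n hh0), S18lib.Cech.ord_const,
      S18lib.Cech.ord_pow, zero_add]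
  rw [P.ord_mul hσu0 (inv_ne_zero hu0), P.ord_inv, NodalDatum.IsInertial.ord_smul_eq, hudiv,
    hudiv] at h1
  rw [Finsupp.sub_apply, SemilinearAut.divisor_smul_apply]
  have h2 : (n : ℤ) * (E₁ (σ⁻¹ • P) - E₁ P) = (n : ℤ) * P.ord h := by
    rw [← h1]; ring
  exact mul_left_cancel₀ hnZ h2

/-- **(U), relative form on `Pic⁰`**: if `n x` is `σ`-fixed (`σ` inertial with a fixed place, `n`
invertible in `k`), then `(σ - 1)² x = 0`. -/
theorem unipotent_rel {σ : SemilinearAut L F} (hσ : D.IsInertial σ) (P : Place L F)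
    (hP : σ • P = P) {n : ℕ} (hn : (n : k) ≠ 0) (x : Pic0 L F) (hx : σ • (n • x) = n • x) :
    σ • (σ • x - x) = σ • x - x := by
  obtain ⟨Ey, hEy, hst⟩ := S36lib.J.exists_stable_divisor C.hF {σ} P
    (fun γ hγ => by rw [Set.mem_singleton_iff.1 hγ]; exact hP) (n • x)
    (fun γ hγ => by rw [Set.mem_singleton_iff.1 hγ]; exact hx)
  have hDy : σ • (Ey : Divisor L F) = (Ey : Divisor L F) := hst σ rfl
  obtain ⟨D₀, rfl⟩ := Pic0.mk_surjective x
  -- `n D₀ - Ey` is principal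
  have hprinc : n • (D₀ : Divisor L F) - (Ey : Divisor L F) ∈
      Divisor.principal (K := L) (F := F) := by
    have h1 : Pic0.mk (n • D₀ - Ey) = 0 := by
      have : Pic0.mk (n • D₀ - Ey) = n • Pic0.mk D₀ - Pic0.mk Ey := rfl
      rw [this, hEy, sub_self]
    have h2 := (QuotientAddGroup.eq_zero_iff _).1 h1
    rw [AddSubgroup.mem_addSubgroupOf] at h2
    simpa using h2
  have hmain := unipotent_divisor_rel C hσ hn hDy hprinc
  -- translate to `Pic⁰`
  set E₁ : Divisor.degZero (K := L) (F := F) := SemilinearAut.degZeroSMulHom σ D₀ - D₀ with hE₁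
  have e1 : σ • Pic0.mk D₀ - Pic0.mk D₀ = Pic0.mk E₁ := by
    rw [SemilinearAut.pic0_smul_mk]
    rfl
  rw [e1, SemilinearAut.pic0_smul_mk]
  have h3 : Pic0.mk (SemilinearAut.degZeroSMulHom σ E₁ - E₁) = 0 := by
    apply (QuotientAddGroup.eq_zero_iff _).2
    rw [AddSubgroup.mem_addSubgroupOf]
    rw [smul_sub] at hmain
    simpa [hE₁] using hmain
  have h4 : Pic0.mk (SemilinearAut.degZeroSMulHom σ E₁ - E₁) =
      Pic0.mk (SemilinearAut.degZeroSMulHom σ E₁) - Pic0.mk E₁ := rfl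
  rw [h4, sub_eq_zero] at h3
  exact h3

end Abstract

section Modular

variable {N : ℕ} [NeZero N]

/-- `(σ - 1)² h = 0` from a nodal instance at level `N`. -/
theorem unip_div_of_hasNodalInstance {q r : ℕ} (hq : q.Prime) (hr : r.Prime) (hqr : q ≠ r)
    {A : ValuationSubring Qb} (hA : A.LiesOverPrime q) (H : HasNodalInstance N A)
    (K : ℕ) (h : JZero N)
    (hh : ∀ τ ∈ A.inertiaSubgroupIn ℚ, τ • (r ^ K • h) = r ^ K • h) :
    ∀ σ ∈ A.inertiaSubgroupIn ℚ, σ • σ • h - (σ • h + σ • h) + h = 0 := by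
  intro σ hσ
  obtain ⟨F₁, F₂, _, _, _, _, D, g, g₁, g₂, C, hI⟩ := H
  have key := unipotent_rel C (hI σ hσ) (S36lib.J.pinfBar N)
    (S36lib.J.galAutBar_smul_pinfBar N σ) (n := r ^ K)
    (natCast_pow_residue_ne_zero hA hr hq hqr K) h (hh σ hσ)
  rw [← galois_smul_pic0_def, ← galois_smul_pic0_def] at key
  rw [smul_sub] at key
  have h2 : σ • σ • h - σ • h - (σ • h - h) = 0 := sub_eq_zero.2 key
  rw [← h2]
  abel

/-- **(4)** `unip_div` (helper4's signature, with `5 ≤ q`: at `q = 2, 3` the nodal instance only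
exists at the auxiliary levels `9 N`, `4 N`, and the transfer back needs divisibility of `h`). -/
theorem unip_div {q r : ℕ} (hq : q.Prime) (h5 : 5 ≤ q) (hr : r.Prime) (hqr : q ≠ r) (hqN : q ∣ N)
    (hq2 : ¬ q ^ 2 ∣ N) (A : ValuationSubring Qb) (hA : A.LiesOverPrime q) (K : ℕ) (h : JZero N)
    (hh : ∀ τ ∈ A.inertiaSubgroupIn ℚ, τ • (r ^ K • h) = r ^ K • h) :
    ∀ σ ∈ A.inertiaSubgroupIn ℚ, σ • σ • h - (σ • h + σ • h) + h = 0 := by
  obtain ⟨M, hNM, hqM⟩ := exists_eq_mul_of_exact_dvd hqN hq2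
  subst hNM
  have hM : 0 < M := by
    rcases Nat.eq_zero_or_pos M with h0 | h0
    · exact absurd (h0 ▸ dvd_zero q) hqM
    · exact h0
  have H : HasNodalInstance (M * q) A :=
    LSb.Unit.instanceStatement_goodPair M q hM hq hqM (Or.inl h5) A hA
  exact unip_div_of_hasNodalInstance hq hr hqr hA H K h hh

end Modular

end Fermat.Agent.S15lib.LocN
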