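/-
S15lib / LocN / Div  (helper1)  — Project E, block LOCN, step (Y): THE ASSEMBLY `LocNDivStmt`.

From (U1) (divisibility of `J₀(p)(ℚ̄)`) and the uniform bound `B` of helper2's
`exists_bound_of_level_six` (`B • V^I ⊆ (τ - 1) V`, `V = J₀(p)[r^K]`, `I` the inertia group of a
place `A ∣ p`): for every rational point `g` and every `K`, the point `B • g` is `r^K`-divisible
inside the `I_A`-fixed points, for every `A ∣ p`.

Proof.  `h₀` with `r^K h₀ = g`;  `W = {x | r^K x ∈ ℤ g} = ℤ h₀ + J[r^K]` is `G_ℚ`-stable, of finite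
level, the inertia acts unipotently on it (helper2's `unip_div`) through elements of order dividing
`r^K`, hence through a cyclic group `⟨τ⟩` (tame inertia).  `v = τ h₀ - h₀ ∈ J[r^K]` is `I_A`-fixed, so
`B v = τ y - y` with `y ∈ J[r^K]`, and `h = B h₀ - y` is fixed by `τ`, hence by `I_A`.
-/
import Mathlib
import Fermat.Agent.S15lib.Desc.Bound
import Fermat.Agent.S15lib.LocN.Unip2
import Fermat.Agent.S15lib.LocN.Tors

set_option autoImplicit false
set_option linter.unusedSectionVars false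
set_option linter.style.haveILetI false

noncomputable section

namespace Fermat.Agent.S15lib.LocN

open AlgebraicCurve ModularCurve Fermat.Agent.S15lib Fermat.Agent.S29lib

local notation "Qb" => AlgebraicClosure ℚ
local notation "GQ" => (AlgebraicClosure ℚ ≃ₐ[ℚ] AlgebraicClosure ℚ)

section Div

variable {p : ℕ} [NeZero p]

/-- `W = {x | m x ∈ ℤ g}` -/
def divSub (g : JZero p) (m : ℕ) : AddSubgroup (JZero p) :=
  (AddSubgroup.zmultiples g).comap (nsmulAddMonoidHom (α := JZero p) m)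

theorem mem_divSub {g : JZero p} {m : ℕ} {x : JZero p} :
    x ∈ divSub g m ↔ ∃ a : ℤ, a • g = m • x := by
  rw [divSub, AddSubgroup.mem_comap, AddSubgroup.mem_zmultiples_iff]
  rfl

theorem isRat_zsmul {g : JZero p} (hg : IsRat g) (a : ℤ) : IsRat (a • g) := fun σ => by
  rw [galois_smul_zsmul, hg σ]

theorem isRat_nsmul_of_mem_divSub {g : JZero p} (hg : IsRat g) {m : ℕ} {x : JZero p}
    (hx : x ∈ divSub g m) : IsRat (m • x) := by
  obtain ⟨a, ha⟩ := mem_divSub.1 hx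
  rw [← ha]
  exact isRat_zsmul hg a

theorem smul_mem_divSub {g : JZero p} (hg : IsRat g) {m : ℕ} (σ : GQ) (x : JZero p)
    (hx : x ∈ divSub g m) : σ • x ∈ divSub g m := by
  obtain ⟨a, ha⟩ := mem_divSub.1 hx
  refine mem_divSub.2 ⟨a, ?_⟩
  rw [← Desc.gsmul_nsmul, ← ha, isRat_zsmul hg a σ]

theorem tors_le_divSub (g : JZero p) (m : ℕ) : Desc.tors p m ≤ divSub g m := fun x hx =>
  mem_divSub.2 ⟨0, by rw [zero_zsmul, Desc.mem_tors.1 hx]⟩

theorem mem_divSub_of_eq {g : JZero p} {m : ℕ} {h₀ : JZero p} (h : m • h₀ = g) :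
    h₀ ∈ divSub g m := mem_divSub.2 ⟨1, by rw [one_smul, h]⟩

/-- `σ x - x ∈ J[m]` for `x ∈ W` -/
theorem smul_sub_mem_tors_of_mem_divSub {g : JZero p} (hg : IsRat g) {m : ℕ} {x : JZero p}
    (hx : x ∈ divSub g m) (σ : GQ) : σ • x - x ∈ Desc.tors p m :=
  Desc.smul_sub_mem_tors (isRat_nsmul_of_mem_divSub hg hx) σ

/-- the action of `G_ℚ` on `W` has finite level -/
theorem galEnd_divSub_finiteLevel {g : JZero p} (hg : IsRat g) {r : ℕ} (hr : r.Prime) (K : ℕ)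
    {h₀ : JZero p} (h : r ^ K • h₀ = g) :
    ∃ L : IntermediateField ℚ Qb, FiniteDimensional ℚ L ∧
      ∀ σ : GQ, (∀ x ∈ L, σ x = x) →
        galEnd (divSub g (r ^ K)) (smul_mem_divSub hg) σ = 1 := by
  haveI := Desc.finite_tors (p := p) hr K
  have hS : GH.FiniteLevel ({σ : GQ | σ • h₀ = h₀} ∩
      ⋂ t : ↥(Desc.tors p (r ^ K)), {σ : GQ | σ • (t : JZero p) = t}) :=
    (GH.finiteLevel_fix_class p h₀).inter
      (GH.finiteLevel_iInter _ fun t => GH.finiteLevel_fix_class p (t : JZero p))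
  obtain ⟨L, hL, hLS⟩ := hS
  refine ⟨L, hL, fun σ hσ => ?_⟩
  obtain ⟨h1, h2⟩ := hLS σ hσ
  simp only [Set.mem_iInter, Set.mem_ofPred_eq] at h1 h2
  ext w
  show σ • (w : JZero p) = w
  obtain ⟨a, ha⟩ := mem_divSub.1 w.2
  have ht : (w : JZero p) - a • h₀ ∈ Desc.tors p (r ^ K) := by
    rw [Desc.mem_tors, nsmul_sub, ← ha, ← h, ← natCast_zsmul, ← natCast_zsmul,
      smul_comm ((r ^ K : ℕ) : ℤ) a h₀]
    exact sub_self _
  have e : (w : JZero p) = a • h₀ + ((w : JZero p) - a • h₀) := by abel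
  rw [e, Desc.gsmul_add, galois_smul_zsmul, h1, h2 ⟨_, ht⟩]

end Div

/-- the local statement for an abstract `W` -/
theorem exists_fixed_div_aux {p : ℕ} [NeZero p] (hp : p.Prime) (h5 : 5 ≤ p) {r : ℕ}
    (hr : r.Prime) (hrp : r ≠ p) {A : ValuationSubring Qb} (hA : A.LiesOverPrime p) (K : ℕ)
    {B : ℕ}
    (hBA : ∀ x : JZero p, r ^ K • x = 0 → (∀ σ ∈ A.inertiaSubgroupIn ℚ, σ • x = x) →
      B • x ∈ AddSubgroup.closure {y : JZero p | ∃ σ ∈ A.inertiaSubgroupIn ℚ, ∃ z : JZero p,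
        r ^ K • z = 0 ∧ y = σ • z - z})
    (W : AddSubgroup (JZero p)) (hW : ∀ (σ : GQ) (x : JZero p), x ∈ W → σ • x ∈ W)
    (hrat : ∀ x ∈ W, IsRat (r ^ K • x))
    (hfin : ∃ L : IntermediateField ℚ Qb, FiniteDimensional ℚ L ∧
      ∀ σ : GQ, (∀ x ∈ L, σ x = x) → galEnd W hW σ = 1)
    (hTW : Desc.tors p (r ^ K) ≤ W) {h₀ : JZero p} (hh₀ : h₀ ∈ W) :
    ∃ h' : JZero p, r ^ K • h' = B • (r ^ K • h₀) ∧
      ∀ σ ∈ A.inertiaSubgroupIn ℚ, σ • h' = h' := by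
  have hp2 : ¬ p ^ 2 ∣ p := by
    intro h2
    have h3 := Nat.le_of_dvd hp.pos h2
    have h4 : p * 2 ≤ p * p := Nat.mul_le_mul_left p hp.two_le
    rw [sq] at h3
    have := hp.pos
    omega
  -- unipotence
  have hunip : ∀ σ ∈ A.inertiaSubgroupIn ℚ, ∀ x ∈ W,
      σ • σ • x - (σ • x + σ • x) + x = 0 := by
    intro σ hσ x hx
    exact unip_div hp h5 hr hrp.symm (dvd_refl p) hp2 A hA K x
      (fun τ _ => hrat x hx τ) σ hσ
  have hU : ∀ σ ∈ A.inertiaSubgroupIn ℚ, IsUnip (galEnd W hW σ) := by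
    intro σ hσ w
    apply Subtype.ext
    exact hunip σ hσ (w : JZero p) w.2
  -- order dividing `r^K`
  have hpgrp : ∀ σ ∈ A.inertiaSubgroupIn ℚ, ∃ n : ℕ, galEnd W hW σ ^ r ^ n = 1 := by
    intro σ hσ
    refine ⟨K, ?_⟩
    ext w
    rw [(hU σ hσ).pow_apply]
    have h0 : r ^ K • (galEnd W hW σ w - w) = 0 := by
      apply Subtype.ext
      exact Desc.mem_tors.1 (Desc.smul_sub_mem_tors (hrat _ w.2) σ)
    rw [h0, add_zero]
    rfl
  obtain ⟨τ, hτ, hgen⟩ := S56lib.Tame.exists_inertia_generator hp hA (galEnd W hW)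
    hfin hr hrp hpgrp
  have hgen' : ∀ σ ∈ A.inertiaSubgroupIn ℚ, ∃ j : ℕ, ∀ x ∈ W, σ • x = (τ ^ j) • x := by
    intro σ hσ
    obtain ⟨j, hj⟩ := hgen σ hσ
    refine ⟨j, fun x hx => ?_⟩
    have hj' : galEnd W hW σ = galEnd W hW (τ ^ j) := by rw [hj, map_pow]
    exact congrArg (fun φ : AddMonoid.End W => ((φ ⟨x, hx⟩ : W) : JZero p)) hj'
  have hfixW : ∀ x ∈ W, τ • x = x → ∀ σ ∈ A.inertiaSubgroupIn ℚ, σ • x = x := by
    intro x hx hτx σ hσ
    obtain ⟨j, hj⟩ := hgen' σ hσ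
    rw [hj x hx]
    exact (MulAction.stabilizer GQ x).pow_mem (MulAction.mem_stabilizer_iff.2 hτx) j
  -- the vector `v`
  have hvT : τ • h₀ - h₀ ∈ Desc.tors p (r ^ K) := Desc.smul_sub_mem_tors (hrat _ hh₀) τ
  have hτv : τ • (τ • h₀ - h₀) = τ • h₀ - h₀ := by
    have := hunip τ hτ h₀ hh₀
    rw [Desc.gsmul_sub]
    have e : τ • τ • h₀ - τ • h₀ - (τ • h₀ - h₀) = 0 := by
      rw [← this]; abel
    exact sub_eq_zero.1 e
  have hvfix := hfixW _ (hTW hvT) hτv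
  have hBv := hBA _ (Desc.mem_tors.1 hvT) hvfix
  -- the closure lies in `(τ - 1) J[r^K]`
  have hcl : AddSubgroup.closure {y : JZero p | ∃ σ ∈ A.inertiaSubgroupIn ℚ, ∃ z : JZero p,
      r ^ K • z = 0 ∧ y = σ • z - z} ≤
      (Desc.tors p (r ^ K)).map (subOne (DistribSMul.toAddMonoidHom (JZero p) τ)) := by
    rw [AddSubgroup.closure_le]
    rintro _ ⟨σ, hσ, z, hz, rfl⟩
    have hzT : z ∈ Desc.tors p (r ^ K) := Desc.mem_tors.2 hz
    obtain ⟨j, hj⟩ := hgen' σ hσ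
    obtain ⟨s, hs, hs'⟩ := Desc.exists_geom (Desc.tors p (r ^ K))
      (fun γ y hy => Desc.smul_mem_tors γ hy) τ hzT j
    refine ⟨s, hs, ?_⟩
    rw [hj z (hTW hzT), hs']
    rfl
  obtain ⟨y, hyT, hy⟩ := hcl hBv
  have hy' : τ • y - y = B • (τ • h₀ - h₀) := hy
  -- the point `h'`
  refine ⟨B • h₀ - y, ?_, ?_⟩
  · rw [nsmul_sub, Desc.mem_tors.1 hyT, sub_zero, ← mul_nsmul, ← mul_nsmul, mul_comm]
  · have hmem : B • h₀ - y ∈ W := W.sub_mem (W.nsmul_mem hh₀ B) (hTW hyT)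
    refine hfixW _ hmem ?_
    have e : τ • (B • h₀ - y) - (B • h₀ - y) = 0 := by
      rw [Desc.gsmul_sub, Desc.gsmul_nsmul]
      have : B • τ • h₀ - τ • y - (B • h₀ - y) = B • (τ • h₀ - h₀) - (τ • y - y) := by
        rw [nsmul_sub]; abel
      rw [this, hy', sub_self]
    exact sub_eq_zero.1 e

/-- **the local statement**: with the bound `B` at the place `A`, the point `B • g` is
`r^K`-divisible inside the `I_A`-fixed points. -/
theorem exists_fixed_div {p : ℕ} [NeZero p] (hp : p.Prime) (h5 : 5 ≤ p) {r : ℕ} (hr : r.Prime)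
    (hrp : r ≠ p) {A : ValuationSubring Qb} (hA : A.LiesOverPrime p) (K : ℕ) {B : ℕ}
    (hBA : ∀ x : JZero p, r ^ K • x = 0 → (∀ σ ∈ A.inertiaSubgroupIn ℚ, σ • x = x) →
      B • x ∈ AddSubgroup.closure {y : JZero p | ∃ σ ∈ A.inertiaSubgroupIn ℚ, ∃ z : JZero p,
        r ^ K • z = 0 ∧ y = σ • z - z})
    {g : JZero p} (hg : IsRat g) {h₀ : JZero p} (h : r ^ K • h₀ = g) :
    ∃ h' : JZero p, r ^ K • h' = B • g ∧ ∀ σ ∈ A.inertiaSubgroupIn ℚ, σ • h' = h' := by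
  have := exists_fixed_div_aux hp h5 hr hrp hA K hBA (divSub g (r ^ K)) (smul_mem_divSub hg)
    (fun x hx => isRat_nsmul_of_mem_divSub hg hx) (galEnd_divSub_finiteLevel hg hr K h)
    (tors_le_divSub g (r ^ K)) (mem_divSub_of_eq h)
  rwa [h] at this

/-- **LOCN (Y)**: `LocNDivStmt` from (U1) and the uniform bound of `exists_bound_of_level_six`. -/
theorem locNDivStmt_of_bound (hU1 : Desc.DivStmt)
    (hB : ∀ {p : ℕ} (hp : p.Prime) (_h5 : 5 ≤ p) {r : ℕ} (_hr : r.Prime) (_hrp : r ≠ p),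
      haveI : NeZero p := ⟨hp.ne_zero⟩
      ∃ B : ℕ, 0 < B ∧ ∀ (A : ValuationSubring Qb), A.LiesOverPrime p →
        ∀ (K : ℕ) (x : JZero p), r ^ K • x = 0 →
          (∀ σ ∈ A.inertiaSubgroupIn ℚ, σ • x = x) →
          B • x ∈ AddSubgroup.closure {y : JZero p | ∃ σ ∈ A.inertiaSubgroupIn ℚ,
            ∃ z : JZero p, r ^ K • z = 0 ∧ y = σ • z - z}) :
    Desc.LocNDivStmt := by
  intro p hp hp' r hr hrp
  haveI : NeZero p := ⟨hp.ne_zero⟩
  have h5 : 5 ≤ p := by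
    have h2 := hp.two_le
    simp only [Finset.mem_insert, Finset.mem_singleton, not_or] at hp'
    obtain ⟨h2', h3', -⟩ := hp'
    by_contra hlt
    have h4 : p = 4 := by omega
    rw [h4] at hp
    exact absurd hp (by decide)
  obtain ⟨B, hBpos, hBA⟩ := hB hp h5 hr hrp
  refine ⟨B, hBpos, fun g hg K => ⟨Desc.IsRat.nsmul hg B, fun A hA => ?_⟩⟩
  obtain ⟨h₀, hh₀⟩ := hU1 hp (r ^ K) (pow_pos hr.pos K) g
  obtain ⟨h', h1, h2⟩ := exists_fixed_div hp h5 hr hrp hA K (hBA A hA K) hg hh₀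
  exact ⟨h', h1, h2⟩

end Fermat.Agent.S15lib.LocN

end
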