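/-
S15lib / LocN / G2  (helper2)  — Project E, block LOCN, sub-block (G2).

Push-forward and pull-back between the levels `N ∣ N'`:

* `pic0PushforwardAlong_smul` : `φ_*` on `Pic⁰` commutes with intertwined semilinear automorphisms;
* `pullLvl h : J₀(N) → J₀(N')`, `pushLvl h : J₀(N') → J₀(N)`, both `G_ℚ`-equivariant
  (`pullLvl_smul`, `pushLvl_smul`), `pushLvl_pullLvl : π_* π^* = [F' : F]`,
  `dedekindPsi_mul_degLvl : ψ(N) · deg = ψ(N')`, `degLvl_six : deg = 12` for `N' = 6 N`, `N ≥ 5`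
  prime.
-/
import Mathlib
import Fermat.Agent.LSb.Xfer.PushPull
import Fermat.Agent.LSc.Xfer.Level
import Fermat.Agent.S18lib.V.GaussU.LevelFin
import Fermat.Agent.ProgramR.Counting.Psi

set_option autoImplicit false
set_option linter.unusedSectionVars false
set_option linter.style.haveILetI false

noncomputable section

namespace Fermat.Agent.S15lib.LocN

open AlgebraicCurve AlgebraicCurve.SemilinearAut ModularCurve
open Fermat.Agent.LSb Fermat.Agent.S18lib Fermat.Agent.S29lib
open Fermat.Agent.S37lib.HeckeInst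

local notation "Qb" => AlgebraicClosure ℚ
local notation "GQ" => (AlgebraicClosure ℚ ≃ₐ[ℚ] AlgebraicClosure ℚ)

section Abstract

variable {K F F' : Type*} [Field K] [Field F] [Field F'] [Algebra K F] [Algebra K F']
variable [HasPrincipalDivisors K F'] (φ : F →ₐ[K] F') (hφ : φ.toRingHom.IsIntegral)

/-- the push-forward commutes with intertwined semilinear automorphisms -/
theorem pic0PushforwardAlong_smul (hfin : FiniteAlong K φ) (hN : NormFormulaAlong K φ hfin)
    {g : SemilinearAut K F} {g' : SemilinearAut K F'}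
    (h : IntertwinesAlong φ.toRingHom g g') (hdeg : ∀ v : Place K F, v.deg ≠ 0) (x : Pic0 K F') :
    Xfer.pic0PushforwardAlong φ hφ hfin hN (g' • x) =
      g • Xfer.pic0PushforwardAlong φ hφ hfin hN x := by
  obtain ⟨D, rfl⟩ := Pic0.mk_surjective x
  rw [pic0_smul_mk, Xfer.pic0PushforwardAlong_mk, Xfer.pic0PushforwardAlong_mk, pic0_smul_mk]
  refine congrArg Pic0.mk (Subtype.ext ?_)
  show Divisor.pushforwardAlong φ hφ
      ((degZeroSMulHom g' D : Divisor.degZero (K := K) (F := F')) : Divisor K F') =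
    ((degZeroSMulHom g _ : Divisor.degZero (K := K) (F := F)) : Divisor K F)
  rw [coe_degZeroSMulHom, coe_degZeroSMulHom]
  exact GH.pushforwardAlong_smul φ hφ h hdeg _

end Abstract

section Levels

variable {N N' : ℕ} [NeZero N] [NeZero N'] (h : N ∣ N')

/-- **the pull-back `π^* : J₀(N) → J₀(N')`** along the level inclusion -/
def pullLvl : JZero N →+ JZero N' :=
  haveI := hasPrincipalDivisors_FB N'
  Xfer.pic0PullbackAlong (V.inclL h) (LSc.Xfer.xferInputs_inclL h).int
    (LSc.Xfer.xferInputs_inclL h).fi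

/-- **the push-forward `π_* : J₀(N') → J₀(N)`** along the level inclusion -/
def pushLvl : JZero N' →+ JZero N :=
  haveI := hasPrincipalDivisors_FB N'
  Xfer.pic0PushforwardAlong (V.inclL h) (LSc.Xfer.xferInputs_inclL h).int
    (LSc.Xfer.xferInputs_inclL h).fin (LSc.Xfer.xferInputs_inclL h).nf

/-- the degree of `X₀(N') → X₀(N)` -/
def degLvl : ℕ := finrankAlong Qb (V.inclL h)

theorem pullLvl_smul (σ : GQ) (y : JZero N) : pullLvl h (σ • y) = σ • pullLvl h y := by
  haveI := hasPrincipalDivisors_FB N'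
  exact Xfer.pic0PullbackAlong_smul (V.inclL h) (LSc.Xfer.xferInputs_inclL h).int
    (LSc.Xfer.xferInputs_inclL h).fi (LSc.Xfer.intertwines_inclL h σ) y

theorem deg_place_FB_ne_zero (v : Place Qb (FB N)) : v.deg ≠ 0 := by
  obtain ⟨g, hF, -⟩ := Gin0.exists_isCurveOfGenus_FBar N
  have := hF.deg_eq_one v
  omega

theorem pushLvl_smul (σ : GQ) (y : JZero N') : pushLvl h (σ • y) = σ • pushLvl h y := by
  haveI := hasPrincipalDivisors_FB N'
  exact pic0PushforwardAlong_smul (V.inclL h) (LSc.Xfer.xferInputs_inclL h).int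
    (LSc.Xfer.xferInputs_inclL h).fin (LSc.Xfer.xferInputs_inclL h).nf
    (LSc.Xfer.intertwines_inclL h σ) deg_place_FB_ne_zero y

/-- **`π_* π^* = deg`** -/
theorem pushLvl_pullLvl (y : JZero N) : pushLvl h (pullLvl h y) = degLvl h • y := by
  haveI := hasPrincipalDivisors_FB N'
  have := Xfer.pic0PushforwardAlong_pullbackAlong (V.inclL h) (LSc.Xfer.xferInputs_inclL h).int
    (LSc.Xfer.xferInputs_inclL h).fi (LSc.Xfer.xferInputs_inclL h).fin
    (LSc.Xfer.xferInputs_inclL h).nf deg_place_FB_ne_zero y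
  rw [natCast_zsmul] at this
  exact this

theorem degLvl_ne_zero : degLvl h ≠ 0 := LSc.Xfer.finrankAlong_inclL_ne_zero h

/-- `ψ(N) · deg = ψ(N')` -/
theorem dedekindPsi_mul_degLvl : dedekindPsi N * degLvl h = dedekindPsi N' :=
  V.dedekindPsi_mul_finrank_inclL h

/-- `ψ(6 N) = 12 ψ(N)` for `N` prime to `6` -/
theorem dedekindPsi_six_mul (hN2 : ¬ 2 ∣ N) (hN3 : ¬ 3 ∣ N) :
    dedekindPsi (6 * N) = 12 * dedekindPsi N := by
  have h1 : dedekindPsi (N * 2) = (2 + 1) * dedekindPsi N :=
    ProgramR.dedekindPsi_mul_prime_of_not_dvd (NeZero.ne N) Nat.prime_two hN2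
  have h32 : ¬ 3 ∣ N * 2 := by
    intro h3
    rcases (Nat.Prime.dvd_mul Nat.prime_three).mp h3 with h3 | h3
    · exact hN3 h3
    · omega
  have h2 : dedekindPsi (N * 2 * 3) = (3 + 1) * dedekindPsi (N * 2) :=
    ProgramR.dedekindPsi_mul_prime_of_not_dvd (mul_ne_zero (NeZero.ne N) two_ne_zero)
      Nat.prime_three h32
  have e : 6 * N = N * 2 * 3 := by ring
  rw [e, h2, h1]
  ring

/-- **`deg (X₀(6N) → X₀(N)) = 12`** for `N` prime to `6` -/
theorem degLvl_six (hN' : N' = 6 * N) (hN2 : ¬ 2 ∣ N) (hN3 : ¬ 3 ∣ N) : degLvl h = 12 := by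
  have h1 := dedekindPsi_mul_degLvl h
  have h2 : dedekindPsi N' = dedekindPsi N * 12 := by
    rw [hN', dedekindPsi_six_mul hN2 hN3, mul_comm]
  rw [h2] at h1
  have hpos : 0 < dedekindPsi N := by
    have := ProgramR.BarField.dedekindPsi_pos (N := N)
    exact this
  exact Nat.eq_of_mul_eq_mul_left hpos h1

end Levels

end Fermat.Agent.S15lib.LocN
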