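/-
S15lib / LocN / G2Descent  (helper2)  — Project E, block LOCN, sub-block (G2): the descent lemma.

ABSTRACT (`card_fixedI_sq_le_of_descent`): `V`, `V'` finite `G_ℚ`-modules, `f : V → V'`,
`g : V' → V` equivariant with `g ∘ f = d`; the inertia group `I` of `P` acts on `V'` through a cyclic
group generated by a unipotent `τ`, and `|V'^I|² ≤ C |V'|`.  Then
`|V^I|² ≤ |V[d · C!]| · |V|`.
(`Φ' = V'^I/(τ-1)V'` has order `≤ C`, so `C!` kills it; for `v ∈ V^I`: `C!·f v = (τ-1)w'`, hence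
`d·C!·v = (τ-1) g w'`; so `m V^I ⊆ (τ-1)V` with `m = d·C!` and
`|V^I| ≤ |V^I[m]| |(τ-1)V| ≤ |V[m]| |V|/|V^I|`.)

MODULAR (`card_fixed_sq_le_of_level`): `N ∣ N'`, `q ∥ N'`, `r ≠ q` primes, `P | q`: a uniform bound
`|J₀(N')[r^k]^I|² ≤ C |J₀(N')[r^k]|` (all `k`) descends to
`|J₀(N)[r^k]^I|² ≤ B |J₀(N)[r^k]|` (all `k`) with `B = |J₀(N)[deg · C!]|`.
-/
import Mathlib
import Fermat.Agent.S15lib.LocN.Tors
import Fermat.Agent.S15lib.LocN.G2
import Fermat.Agent.S19lib.T.Tors

set_option autoImplicit false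
set_option linter.unusedSectionVars false
set_option linter.style.haveILetI false

noncomputable section

namespace Fermat.Agent.S15lib.LocN

open ValuationSubring ModularCurve Fermat.Agent.S29lib

local notation "Ω" => AlgebraicClosure ℚ
local notation "Γℚ" => (AlgebraicClosure ℚ ≃ₐ[ℚ] AlgebraicClosure ℚ)

section Abstract

variable {V V' : Type*} [AddCommGroup V] [AddCommGroup V']

/-- `|V| = |ker ψ| · |range ψ|` -/
theorem card_eq_card_ker_mul_card_range [Finite V] (ψ : V →+ V') :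
    Nat.card V = Nat.card ψ.ker * Nat.card ψ.range := by
  have h1 : Nat.card V = Nat.card (V ⧸ ψ.ker) * Nat.card ψ.ker :=
    AddSubgroup.card_eq_card_quotient_mul_card_addSubgroup ψ.ker
  have h2 : Nat.card (V ⧸ ψ.ker) = Nat.card ψ.range :=
    Nat.card_congr (QuotientAddGroup.quotientKerEquivRange ψ).toEquiv
  rw [h1, h2, mul_comm]

/-- a subgroup `R ≤ K` with `|K| ≤ C |R|` contains `C! • K` -/
theorem factorial_nsmul_mem_of_card_le [Finite V] {R K : AddSubgroup V} (hRK : R ≤ K) {C : ℕ}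
    (hC : Nat.card K ≤ C * Nat.card R) {x : V} (hx : x ∈ K) : C.factorial • x ∈ R := by
  set H : AddSubgroup K := R.addSubgroupOf K with hH
  have hcardH : Nat.card H = Nat.card R :=
    Nat.card_congr (AddSubgroup.addSubgroupOfEquivOfLe hRK).toEquiv
  have hidx : Nat.card H * H.index = Nat.card K := AddSubgroup.card_mul_index H
  have hRpos : 0 < Nat.card R := Nat.card_pos
  have hle : H.index ≤ C := by
    rw [hcardH] at hidx
    have : Nat.card R * H.index ≤ Nat.card R * C := by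
      rw [hidx, mul_comm]; exact hC
    exact Nat.le_of_mul_le_mul_left this hRpos
  have hpos : 0 < H.index := by
    rcases Nat.eq_zero_or_pos H.index with h0 | h0
    · rw [h0, mul_zero] at hidx
      exact absurd hidx.symm (Nat.card_pos (α := K)).ne'
    · exact h0
  have hdvd : H.index ∣ C.factorial := Nat.dvd_factorial hpos hle
  have hmem : H.index • (⟨x, hx⟩ : K) ∈ H := AddSubgroup.nsmul_index_mem H _
  obtain ⟨e, he⟩ := hdvd
  have h2 : C.factorial • (⟨x, hx⟩ : K) ∈ H := by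
    rw [he, mul_nsmul]
    exact H.nsmul_mem hmem e
  rw [hH, AddSubgroup.mem_addSubgroupOf] at h2
  simpa using h2

variable {P : ValuationSubring Ω} (ρ : Γℚ →* AddMonoid.End V) (ρ' : Γℚ →* AddMonoid.End V')
  (f : V →+ V') (g : V' →+ V)
  (hf : ∀ (σ : Γℚ) (v : V), f (ρ σ v) = ρ' σ (f v))
  (hg : ∀ (σ : Γℚ) (w : V'), g (ρ' σ w) = ρ σ (g w))
  {d : ℕ} (hgf : ∀ v : V, g (f v) = d • v)
  {τ : Γℚ} (hτ : τ ∈ P.inertiaSubgroupIn ℚ)
  (hgen : ∀ σ ∈ P.inertiaSubgroupIn ℚ, ∃ j : ℕ, ρ' σ = ρ' τ ^ j)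
  (hU : IsUnip (ρ' τ)) {C : ℕ}

include hf hg hgf hτ hgen hU in
/-- `d · C! · V^I ⊆ (τ - 1) V` -/
theorem nsmul_mem_range_of_descent [Finite V']
    (hC : Nat.card (fixedI P ρ') ^ 2 ≤ C * Nat.card V') {v : V} (hv : v ∈ fixedI P ρ) :
    (d * C.factorial) • v ∈ (subOne (ρ τ)).range := by
  set ψ' := subOne (ρ' τ) with hψ'
  have hK' : fixedI P ρ' = ψ'.ker := fixedI_eq_ker hτ hgen
  have hle : ψ'.range ≤ ψ'.ker := by
    rintro _ ⟨w, rfl⟩
    rw [AddMonoidHom.mem_ker]
    exact hU.subOne_subOne w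
  have hcard := card_eq_card_ker_mul_card_range ψ'
  have hC' : Nat.card ψ'.ker ≤ C * Nat.card ψ'.range := by
    rw [hK', hcard, sq] at hC
    have hpos : 0 < Nat.card ψ'.ker := Nat.card_pos
    have : Nat.card ψ'.ker * Nat.card ψ'.ker ≤ Nat.card ψ'.ker * (C * Nat.card ψ'.range) := by
      calc Nat.card ψ'.ker * Nat.card ψ'.ker ≤ C * (Nat.card ψ'.ker * Nat.card ψ'.range) := hC
        _ = Nat.card ψ'.ker * (C * Nat.card ψ'.range) := by ring
    exact Nat.le_of_mul_le_mul_left this hpos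
  -- `f v` is fixed
  have hfv : f v ∈ ψ'.ker := by
    rw [← hK', mem_fixedI]
    intro σ hσ
    rw [← hf, hv σ hσ]
  obtain ⟨w', hw'⟩ := factorial_nsmul_mem_of_card_le hle hC' hfv
  refine ⟨g w', ?_⟩
  rw [subOne_apply, ← hg, ← map_sub, ← subOne_apply, ← hψ', hw', map_nsmul, hgf, mul_nsmul]

include hf hg hgf hτ hgen hU in
/-- **the abstract descent lemma** -/
theorem card_fixedI_sq_le_of_descent [Finite V] [Finite V']
    (hC : Nat.card (fixedI P ρ') ^ 2 ≤ C * Nat.card V') :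
    Nat.card (fixedI P ρ) ^ 2 ≤
      Nat.card {v : V // (d * C.factorial) • v = 0} * Nat.card V := by
  set m := d * C.factorial with hm
  set ψ := subOne (ρ τ) with hψ
  set K := fixedI P ρ with hK
  -- multiplication by `m` on `K`
  let μ : K →+ V := (nsmulAddMonoidHom m).comp K.subtype
  have hμ : ∀ x : K, μ x = m • (x : V) := fun x => rfl
  have h1 := card_eq_card_ker_mul_card_range μ
  have hker : Nat.card μ.ker ≤ Nat.card {v : V // m • v = 0} := by
    refine Nat.card_le_card_of_injective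
      (fun x => ⟨((x : K) : V), by
        have := x.2
        rw [AddMonoidHom.mem_ker, hμ] at this
        exact this⟩) ?_
    intro x y hxy
    have : ((x : K) : V) = ((y : K) : V) := Subtype.mk.inj hxy
    exact Subtype.ext (Subtype.ext this)
  have hrange : Nat.card μ.range ≤ Nat.card ψ.range := by
    have hle : μ.range ≤ ψ.range := by
      rintro _ ⟨x, rfl⟩
      rw [hμ]
      exact nsmul_mem_range_of_descent ρ ρ' f g hf hg hgf hτ hgen hU hC x.2
    exact Nat.card_le_card_of_injective (AddSubgroup.inclusion hle)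
      (AddSubgroup.inclusion_injective hle)
  have hKle : Nat.card K ≤ Nat.card ψ.ker := by
    have hle : K ≤ ψ.ker := by
      intro v hv
      rw [AddMonoidHom.mem_ker, subOne_apply, sub_eq_zero]
      exact hv τ hτ
    exact Nat.card_le_card_of_injective (AddSubgroup.inclusion hle)
      (AddSubgroup.inclusion_injective hle)
  have h2 := card_eq_card_ker_mul_card_range ψ
  calc Nat.card K ^ 2 = Nat.card K * Nat.card K := sq _
    _ = (Nat.card μ.ker * Nat.card μ.range) * Nat.card K := by rw [← h1]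
    _ ≤ (Nat.card {v : V // m • v = 0} * Nat.card ψ.range) * Nat.card ψ.ker :=
        Nat.mul_le_mul (Nat.mul_le_mul hker hrange) hKle
    _ = Nat.card {v : V // m • v = 0} * Nat.card V := by rw [h2]; ring

end Abstract

section Modular

/-- the restriction of an additive map `J₀(N) → J₀(N')` to the `n`-torsion -/
def torsMap {N N' : ℕ} [NeZero N] [NeZero N'] (φ : JZero N →+ JZero N') (n : ℕ) :
    (Tors N n).toAddSubgroup →+ (Tors N' n).toAddSubgroup :=
  (φ.comp (Tors N n).toAddSubgroup.subtype).codRestrict _ (fun x => by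
    show φ (x : JZero N) ∈ Tors N' n
    have hx : (x : JZero N) ∈ Tors N n := x.2
    rw [Submodule.mem_torsionBy_iff] at hx ⊢
    rw [← map_zsmul, hx, map_zero])

@[simp]
theorem coe_torsMap {N N' : ℕ} [NeZero N] [NeZero N'] (φ : JZero N →+ JZero N') (n : ℕ)
    (x : (Tors N n).toAddSubgroup) : ((torsMap φ n x : (Tors N' n).toAddSubgroup) : JZero N') =
      φ (x : JZero N) := rfl

theorem tors_stable (N : ℕ) [NeZero N] (n : ℕ) (σ : Γℚ) (x : JZero N)
    (hx : x ∈ (Tors N n).toAddSubgroup) : σ • x ∈ (Tors N n).toAddSubgroup :=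
  smul_mem_Tors σ hx

variable {N N' : ℕ} [NeZero N] [NeZero N'] (h : N ∣ N')
variable {q r : ℕ} (hq : q.Prime) (hr : r.Prime) (hqr : q ≠ r) (hqN' : q ∣ N')
  (hq2 : ¬ q ^ 2 ∣ N') {P : ValuationSubring Ω} (hP : P.LiesOverPrime q)

include hq hr hqr hqN' hq2 hP in
/-- **the descent lemma of (c)**: a uniform bound `|J₀(N')[r^k]^I|² ≤ C |J₀(N')[r^k]|` at the upper
level `N'` (`q ∥ N'`) gives the uniform bound `|J₀(N)[r^k]^I|² ≤ B |J₀(N)[r^k]|` at every level
`N ∣ N'`, with `B = |J₀(N)[deg · C!]|`. -/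
theorem card_fixed_sq_le_of_level {C : ℕ}
    (hC : ∀ k : ℕ, Nat.card {w : Tors N' (r ^ k) //
        ∀ σ ∈ P.inertiaSubgroupIn ℚ, σ • (w : JZero N') = w} ^ 2 ≤
      C * Nat.card (Tors N' (r ^ k))) (k : ℕ) :
    Nat.card {w : Tors N (r ^ k) // ∀ σ ∈ P.inertiaSubgroupIn ℚ, σ • (w : JZero N) = w} ^ 2 ≤
      Nat.card (Tors N (degLvl h * C.factorial)) * Nat.card (Tors N (r ^ k)) := by
  set W : AddSubgroup (JZero N) := (Tors N (r ^ k)).toAddSubgroup with hWdef
  set W' : AddSubgroup (JZero N') := (Tors N' (r ^ k)).toAddSubgroup with hW'def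
  have hW := tors_stable N (r ^ k)
  have hW' := tors_stable N' (r ^ k)
  haveI : Finite W := (S19lib.T.finite_tors_prime_pow N hr k).to_subtype
  haveI : Finite W' := (S19lib.T.finite_tors_prime_pow N' hr k).to_subtype
  have hk' : ∀ x ∈ W', x ∈ Tors N' (r ^ k) := fun x hx => hx
  obtain ⟨τ, hτ, hgen⟩ := exists_tame_generator hq hP (galEnd W' hW') (galEnd_finiteLevel W' hW')
    hr hqr.symm (exponent_of_le_tors W' hk')
    (fun σ hσ => isUnip_galEnd hq hr hqr hqN' hq2 hP W' hW' hk' hσ)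
  have hU : IsUnip (galEnd W' hW' τ) := isUnip_galEnd hq hr hqr hqN' hq2 hP W' hW' hk' hτ
  -- the hypothesis in `fixedI` form
  have hC' : Nat.card (fixedI P (galEnd W' hW')) ^ 2 ≤ C * Nat.card W' := by
    refine le_trans (le_of_eq ?_) (hC k)
    congr 1
    refine Nat.card_congr (Equiv.subtypeEquivRight fun w => ?_)
    rw [mem_fixedI]
    refine forall₂_congr fun σ _ => ?_
    rw [Subtype.ext_iff]
    rfl
  have key := card_fixedI_sq_le_of_descent (P := P) (galEnd W hW) (galEnd W' hW')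
    (torsMap (pullLvl h) (r ^ k)) (torsMap (pushLvl h) (r ^ k))
    (fun σ v => Subtype.ext (pullLvl_smul h σ (v : JZero N)))
    (fun σ w => Subtype.ext (pushLvl_smul h σ (w : JZero N')))
    (d := degLvl h) (fun v => Subtype.ext (pushLvl_pullLvl h (v : JZero N))) hτ hgen hU hC'
  -- back to the subtype form
  have hm : degLvl h * C.factorial ≠ 0 :=
    mul_ne_zero (degLvl_ne_zero h) (Nat.factorial_ne_zero C)
  haveI : Finite (Tors N (degLvl h * C.factorial)) :=
    (S19lib.T.finite_tors_nat N _ hm).to_subtype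
  have h1 : Nat.card {v : W // (degLvl h * C.factorial) • v = 0} ≤
      Nat.card (Tors N (degLvl h * C.factorial)) := by
    refine Nat.card_le_card_of_injective
      (fun x => ⟨((x : W) : JZero N), by
        have hx : (((degLvl h * C.factorial) • (x : W) : W) : JZero N) = ((0 : W) : JZero N) :=
          congrArg Subtype.val x.2
        rw [Submodule.mem_torsionBy_iff, natCast_zsmul]
        exact (AddSubgroup.coe_nsmul W (x : W) _).symm.trans (hx.trans (AddSubgroup.coe_zero W))⟩) ?_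
    intro x y hxy
    have : ((x : W) : JZero N) = ((y : W) : JZero N) := Subtype.mk.inj hxy
    exact Subtype.ext (Subtype.ext this)
  have h2 : Nat.card {w : Tors N (r ^ k) //
      ∀ σ ∈ P.inertiaSubgroupIn ℚ, σ • (w : JZero N) = w} = Nat.card (fixedI P (galEnd W hW)) := by
    refine Nat.card_congr (Equiv.subtypeEquivRight fun w => ?_)
    rw [mem_fixedI]
    refine forall₂_congr fun σ _ => ?_
    rw [Subtype.ext_iff]
    rfl
  rw [h2]
  exact key.trans (Nat.mul_le_mul_right _ h1)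

/-- the shape used by LOCN: `N ≥ 5` prime, upper level `6 N` (where `deg = 12`). -/
theorem exists_card_fixed_sq_le_of_six {N : ℕ} [NeZero N] (hN : N.Prime) (h5 : 5 ≤ N)
    {r : ℕ} (hr : r.Prime) (hrN : r ≠ N) {P : ValuationSubring Ω} (hP : P.LiesOverPrime N) {C : ℕ}
    (hC : ∀ k : ℕ, Nat.card {w : Tors (6 * N) (r ^ k) //
        ∀ σ ∈ P.inertiaSubgroupIn ℚ, σ • (w : JZero (6 * N)) = w} ^ 2 ≤
      C * Nat.card (Tors (6 * N) (r ^ k))) :
    ∃ B : ℕ, ∀ k : ℕ,
      Nat.card {w : Tors N (r ^ k) // ∀ σ ∈ P.inertiaSubgroupIn ℚ, σ • (w : JZero N) = w} ^ 2 ≤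
        B * Nat.card (Tors N (r ^ k)) := by
  have h : N ∣ 6 * N := Dvd.intro_left 6 rfl
  have hq2 : ¬ N ^ 2 ∣ 6 * N := by
    intro h2
    rw [sq, mul_comm 6 N] at h2
    have h6 : N ∣ 6 := (Nat.mul_dvd_mul_iff_left hN.pos).1 h2
    have hle := Nat.le_of_dvd (by norm_num) h6
    have h56 : N = 5 ∨ N = 6 := by omega
    rcases h56 with h56 | h56
    · rw [h56] at h6; omega
    · rw [h56] at hN; exact absurd hN (by norm_num)
  exact ⟨_, card_fixed_sq_le_of_level h hN hr hrN.symm h hq2 hP hC⟩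

include hq hr hqr hqN' hq2 hP in
/-- the element-wise form: `deg · C! · x` is a `(τ - 1)`-boundary for every inertia-fixed
`x ∈ J₀(N)[r^k]`. -/
theorem nsmul_mem_closure_of_level {C : ℕ}
    (hC : ∀ k : ℕ, Nat.card {x : JZero N' // r ^ k • x = 0 ∧
        ∀ σ ∈ P.inertiaSubgroupIn ℚ, σ • x = x} ^ 2 ≤
      C * Nat.card {x : JZero N' // r ^ k • x = 0}) (k : ℕ) (x : JZero N) (hx : r ^ k • x = 0)
    (hfix : ∀ σ ∈ P.inertiaSubgroupIn ℚ, σ • x = x) :
    (degLvl h * C.factorial) • x ∈ AddSubgroup.closure {y : JZero N |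
      ∃ σ ∈ P.inertiaSubgroupIn ℚ, ∃ z : JZero N, r ^ k • z = 0 ∧ y = σ • z - z} := by
  set W : AddSubgroup (JZero N) := (Tors N (r ^ k)).toAddSubgroup with hWdef
  set W' : AddSubgroup (JZero N') := (Tors N' (r ^ k)).toAddSubgroup with hW'def
  have hW := tors_stable N (r ^ k)
  have hW' := tors_stable N' (r ^ k)
  haveI : Finite W := (S19lib.T.finite_tors_prime_pow N hr k).to_subtype
  haveI : Finite W' := (S19lib.T.finite_tors_prime_pow N' hr k).to_subtype
  have hk' : ∀ x ∈ W', x ∈ Tors N' (r ^ k) := fun x hx => hx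
  have hmemW : ∀ {y : JZero N}, y ∈ W ↔ r ^ k • y = 0 := fun {y} => by
    show y ∈ Tors N (r ^ k) ↔ _
    rw [Submodule.mem_torsionBy_iff, natCast_zsmul]
  have hmemW' : ∀ {y : JZero N'}, y ∈ W' ↔ r ^ k • y = 0 := fun {y} => by
    show y ∈ Tors N' (r ^ k) ↔ _
    rw [Submodule.mem_torsionBy_iff, natCast_zsmul]
  obtain ⟨τ, hτ, hgen⟩ := exists_tame_generator hq hP (galEnd W' hW') (galEnd_finiteLevel W' hW')
    hr hqr.symm (exponent_of_le_tors W' hk')
    (fun σ hσ => isUnip_galEnd hq hr hqr hqN' hq2 hP W' hW' hk' hσ)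
  have hU : IsUnip (galEnd W' hW' τ) := isUnip_galEnd hq hr hqr hqN' hq2 hP W' hW' hk' hτ
  -- the hypothesis in `fixedI` form
  have e1 : Nat.card (fixedI P (galEnd W' hW')) = Nat.card {x : JZero N' // r ^ k • x = 0 ∧
      ∀ σ ∈ P.inertiaSubgroupIn ℚ, σ • x = x} := by
    refine Nat.card_congr
      { toFun := fun w => ⟨((w : W') : JZero N'), hmemW'.1 (w : W').2, fun σ hσ =>
          congrArg Subtype.val (w.2 σ hσ)⟩
        invFun := fun y => ⟨⟨(y : JZero N'), hmemW'.2 y.2.1⟩, fun σ hσ =>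
          Subtype.ext (y.2.2 σ hσ)⟩
        left_inv := fun w => rfl
        right_inv := fun y => rfl }
  have e2 : Nat.card W' = Nat.card {x : JZero N' // r ^ k • x = 0} :=
    Nat.card_congr (Equiv.subtypeEquivRight fun y => hmemW')
  have hC' : Nat.card (fixedI P (galEnd W' hW')) ^ 2 ≤ C * Nat.card W' := by
    rw [e1, e2]; exact hC k
  have hv : (⟨x, hmemW.2 hx⟩ : W) ∈ fixedI P (galEnd W hW) := fun σ hσ =>
    Subtype.ext (hfix σ hσ)
  obtain ⟨w, hw⟩ := nsmul_mem_range_of_descent (P := P) (galEnd W hW) (galEnd W' hW')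
    (torsMap (pullLvl h) (r ^ k)) (torsMap (pushLvl h) (r ^ k))
    (fun σ v => Subtype.ext (pullLvl_smul h σ (v : JZero N)))
    (fun σ w => Subtype.ext (pushLvl_smul h σ (w : JZero N')))
    (d := degLvl h) (fun v => Subtype.ext (pushLvl_pullLvl h (v : JZero N))) hτ hgen hU hC' hv
  have hw' : τ • (w : JZero N) - (w : JZero N) = (degLvl h * C.factorial) • x := by
    have := congrArg (fun u : W => (u : JZero N)) hw
    simp only [subOne_apply, AddSubgroup.coe_sub, galEnd_apply, AddSubgroup.coe_nsmul] at this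
    exact this
  rw [← hw']
  exact AddSubgroup.subset_closure ⟨τ, hτ, (w : JZero N), hmemW.1 w.2, rfl⟩

end Modular

/-- **(G2), helper4's signature**: the annulus bound at level `6p` gives a uniform `B` killing
`V^I / (τ - 1)V` at level `p`. -/
theorem exists_bound_of_level_six {p : ℕ} (hp : p.Prime) (h5 : 5 ≤ p) {r : ℕ} (hr : r.Prime)
    (hrp : r ≠ p) (c : ℕ)
    (h6 : haveI : NeZero (6 * p) := ⟨by have := hp.pos; omega⟩
      ∀ (A : ValuationSubring Ω), A.LiesOverPrime p → ∀ K : ℕ,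
        Nat.card {x : JZero (6 * p) // r ^ K • x = 0 ∧
          ∀ σ ∈ A.inertiaSubgroupIn ℚ, σ • x = x} ^ 2 ≤
        c * Nat.card {x : JZero (6 * p) // r ^ K • x = 0}) :
    haveI : NeZero p := ⟨hp.ne_zero⟩
    ∃ B : ℕ, 0 < B ∧ ∀ (A : ValuationSubring Ω), A.LiesOverPrime p → ∀ (K : ℕ) (x : JZero p),
      r ^ K • x = 0 → (∀ σ ∈ A.inertiaSubgroupIn ℚ, σ • x = x) →
      B • x ∈ AddSubgroup.closure {y : JZero p | ∃ σ ∈ A.inertiaSubgroupIn ℚ, ∃ z : JZero p,
        r ^ K • z = 0 ∧ y = σ • z - z} := by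
  haveI : NeZero p := ⟨hp.ne_zero⟩
  haveI : NeZero (6 * p) := ⟨by have := hp.pos; omega⟩
  have h : p ∣ 6 * p := Dvd.intro_left 6 rfl
  have hq2 : ¬ p ^ 2 ∣ 6 * p := by
    intro h2
    rw [sq, mul_comm 6 p] at h2
    have h6' : p ∣ 6 := (Nat.mul_dvd_mul_iff_left hp.pos).1 h2
    have hle := Nat.le_of_dvd (by norm_num) h6'
    have h56 : p = 5 ∨ p = 6 := by omega
    rcases h56 with h56 | h56
    · rw [h56] at h6'; omega
    · rw [h56] at hp; exact absurd hp (by norm_num)
  refine ⟨degLvl h * c.factorial,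
    Nat.pos_of_ne_zero (mul_ne_zero (degLvl_ne_zero h) (Nat.factorial_ne_zero c)),
    fun A hA K x hx hfix => ?_⟩
  exact nsmul_mem_closure_of_level h hp hr hrp.symm h hq2 hA (fun k => h6 A hA k) K x hx hfix

end Fermat.Agent.S15lib.LocN
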