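/-
S15lib / LocN / G1  (helper2)  — Project E, block LOCN, sub-block (G1).

The auxiliary level `6` is elliptic-free (`ν₂ 6 = ν₃ 6 = 0`) and `X₀(6)` has genus `0`, in
characteristic `0` and in every characteristic `ℓ ∤ 6`:

* `nuTwo_six`, `nuThree_six`, `dedekindPsi_six`, `cuspCount_six`;
* `isCurveOfGenus_FBar_six : IsCurveOfGenus ℚ̄ (FBar 6) 0`;
* `isCurveOfGenus_FRes_six_of_not_dvd : IsCurveOfGenus (kRes A) (FRes A 6) 0` for `A | ℓ`, `ℓ ∤ 6`;
* `isCurveOfGenus_FRes_six` : the same for `A | q`, `q ≥ 5` prime.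
-/
import Mathlib
import Fermat.Agent.S18lib.Gin0.RH
import Fermat.Agent.S18lib.RRgen.Canonical
import Fermat.Agent.S37lib.B3.Unique
import Fermat.Agent.S37lib.B3.Inst

set_option autoImplicit false
set_option linter.unusedSectionVars false
set_option linter.style.haveILetI false

noncomputable section

namespace Fermat.Agent.S15lib.LocN

open ModularCurve Fermat.Agent.S18lib

local notation "Qb" => AlgebraicClosure ℚ

theorem nuTwo_six : nuTwo 6 = 0 :=
  Gin0.nuTwo_eq_zero_of_three_dvd (by norm_num)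

theorem nuThree_six : nuThree 6 = 0 :=
  Gin0.nuThree_eq_zero_of_two_dvd (by norm_num)

theorem dedekindPsi_six : dedekindPsi 6 = 12 := by
  have h : (6 : ℕ).divisors = {1, 2, 3, 6} := by decide
  rw [dedekindPsi, h, Finset.filter_true_of_mem]
  · simp
  · intro d hd
    simp only [Finset.mem_insert, Finset.mem_singleton] at hd
    rcases hd with rfl | rfl | rfl | rfl
    · exact squarefree_one
    · exact Nat.prime_two.squarefree
    · exact Nat.prime_three.squarefree
    · rw [Nat.squarefree_iff_prime_squarefree]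
      intro p hp hdvd
      have hle : p * p ≤ 6 := Nat.le_of_dvd (by norm_num) hdvd
      have h2 := hp.two_le
      have hp2 : p = 2 := by nlinarith
      subst hp2
      omega

theorem cuspCount_six : cuspCount 6 = 4 := by
  decide

/-- **`X₀(6)` has genus `0`** (characteristic `0`). -/
theorem isCurveOfGenus_FBar_six : IsCurveOfGenus Qb (FBar 6) 0 := by
  obtain ⟨g, hF, hg⟩ := Gin0.exists_isCurveOfGenus_FBar 6
  have h := Gin0.twelve_mul_genus_sub_one 6 hg
  rw [nuTwo_six, nuThree_six, dedekindPsi_six, cuspCount_six] at h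
  have hg0 : g = 0 := by
    push_cast at h
    omega
  rw [← hg0]
  exact hF

/-- **`X₀(6)` has genus `0` in characteristic `ℓ ∤ 6`.** -/
theorem isCurveOfGenus_FRes_six_of_not_dvd {ℓ : ℕ} [Fact ℓ.Prime] (hℓ6 : ¬ ℓ ∣ 6)
    (A : ValuationSubring Qb) (hA : A.LiesOverPrime ℓ) :
    IsCurveOfGenus (kRes A) (FRes A 6) 0 := by
  obtain ⟨g, hF, hFk⟩ :=
    S37lib.B3.exists_genus_level 6 A hℓ6 hA (S37lib.B3.reductionInputsModL 6 A hℓ6 hA)
  have hg0 : g = 0 := RRgen.Canonical.genus_unique hF isCurveOfGenus_FBar_six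
  rw [← hg0]
  exact hFk

/-- **(G1)** the same for a prime `q ≥ 5` (the shape used at level `6q`; helper4's signature). -/
theorem isCurveOfGenus_FRes_six {N : ℕ} [Fact N.Prime] (h5 : 5 ≤ N)
    (A : ValuationSubring Qb) (hA : A.LiesOverPrime N) :
    S18lib.IsCurveOfGenus (IsLocalRing.ResidueField A) (FRes A 6) 0 := by
  refine isCurveOfGenus_FRes_six_of_not_dvd (fun h => ?_) A hA
  have hN : N.Prime := Fact.out
  have h6 : N ∣ 2 * 3 := by simpa using h
  rcases (Nat.Prime.dvd_mul hN).mp h6 with h2 | h3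
  · have := (Nat.prime_dvd_prime_iff_eq hN Nat.prime_two).mp h2
    omega
  · have := (Nat.prime_dvd_prime_iff_eq hN Nat.prime_three).mp h3
    omega

end Fermat.Agent.S15lib.LocN
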