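/-
S15lib / LocN / Six  (helper1)  — Project E, block LOCN, step (X): THE INSTANCE AT LEVEL `6 p`.

From helper4's abstract annulus count `AnnCountStmt` (`LocN/Ann/Iface`): at level `6 p` (`p ≥ 5`),
for `r ≠ p` and every place `A | p`, the inertia-fixed `r^K`-torsion of `J₀(6p)` satisfies
`|J[r^K]^{I_A}|² ≤ c · |J[r^K]|`, with `c = (g + 1)²` (`g` the genus of `X₀(6p)`), uniformly in `A`
and `K`.  This is the hypothesis `h6` of helper2's `exists_bound_of_level_six`.

Ingredients: the concrete nodal package `Kap.modNModInst` at `M = 6`, `q = p` (both components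
`FRes A 6` of genus `0`, helper2's `G1`), the uniform coordinate `H4.exists_unifCoord`, the annulus
datum `M.modAnn`, helper6's `SEL.exists_valuation_eq_zpow`, and the torsion count of S27.
-/
import Mathlib
import Fermat.Agent.S15lib.LocN.Ann.Iface
import Fermat.Agent.S15lib.LocN.G1
import Fermat.Agent.S15lib.SEL.VG
import Fermat.Agent.S44lib.Lvl.MPrimeClosed
import Fermat.Agent.S27lib.Short
import Fermat.Agent.S36lib.J.ClassDescentBar
import Fermat.Agent.S33lib.NRed.FrameOf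

set_option autoImplicit false
set_option linter.unusedSectionVars false
set_option linter.style.haveILetI false

noncomputable section

namespace Fermat.Agent.S15lib.LocN

open AlgebraicCurve ModularCurve
open Fermat.Agent.LSb Fermat.Agent.S18lib Fermat.Agent.S33lib Fermat.Agent.S44lib
open Fermat.Agent.S29lib.GH Fermat.Agent.S19lib

local notation "Qb" => AlgebraicClosure ℚ
local notation "GQ" => (AlgebraicClosure ℚ ≃ₐ[ℚ] AlgebraicClosure ℚ)

section Inst

variable {p : ℕ} [NeZero p] [hq : Fact p.Prime] {A : ValuationSubring Qb}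
variable (hqM : ¬ p ∣ 6) (hA : A.LiesOverPrime p) (h5 : 5 ≤ p)

include h5 in
/-- the genus of the components at level `6` is `0` -/
theorem modGk_six : Kap.modGk (M := 6) hqM hA = 0 :=
  RRgen.Canonical.genus_unique (Kap.modGk_spec hqM hA) (isCurveOfGenus_FRes_six h5 A hA)

include hqM hA h5 in
/-- **the annulus count at level `6 p`, for one place `A | p`**: the inertia-fixed `n`-torsion
classes are at most `(g + 1) · n ^ g`, `g` the genus of `X₀(6p)`. -/
theorem card_fixed_le_six (hAnn : AnnCountStmt) {n : ℕ}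
    (hn : (n : IsLocalRing.ResidueField A) ≠ 0) :
    Finite {x : JZero (6 * p) // (n : ℤ) • x = 0 ∧ ∀ σ ∈ A.inertiaSubgroupIn ℚ, σ • x = x} ∧
      Nat.card {x : JZero (6 * p) // (n : ℤ) • x = 0 ∧ ∀ σ ∈ A.inertiaSubgroupIn ℚ, σ • x = x} ≤
        (Kap.modG 6 p + 1) * n ^ (Kap.modG 6 p) := by
  letI := Kap.modHpdK hqM hA
  haveI := Kap.modInfinite (A := A)
  obtain ⟨z, hz, -, hzfix⟩ := H4.exists_unifCoord hqM hA h5 nuTwo_six nuThree_six
    (Lvl.kronLiftStmt_holds 6 p A hqM hA)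
  have hann : ∀ σ ∈ IA A, ∀ P : Place Qb (FBar (6 * p)),
      (S44lib.M.modAnn hqM hA h5 hz).ann (galAutBar (6 * p) σ • P) =
        (S44lib.M.modAnn hqM hA h5 hz).ann P :=
    fun σ hσ P => Ann.annOfNCtx_ann_smul (Kap.modCtx hqM hA h5) hz S44lib.M.exists_sqrt_Qb
      (Kap.modInertial hqM hA h5 σ hσ) P
  set I := Kap.modNModInst hqM hA h5 with hI
  set D := S44lib.M.modAnn hqM hA h5 hz with hD
  have hS : M.AnnSym D I.S :=
    M.annSym_of_liftCtx (D := D) (S := I.S) (Kap.modLiftCtx hqM hA h5)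
      (fun g P => hann g.1 g.2 P) (fun g _ => hzfix g.1 g.2) (fun g _ => by
        show I.S.hat g ((p : ℕ) : Qb) = ((p : ℕ) : Qb)
        rw [I.hat_apply]
        exact map_natCast _ _)
  have hgk := modGk_six hqM hA h5
  have hC0 := Kap.modCtx hqM hA h5
  rw [hgk] at hC0
  have hC : NodalCtx D.nod (Kap.modG 6 p) 0 0 := hC0
  have hG : D.GlueAnn := Ann.annOfNCtx_glueAnn _ hz _ _
  have hP₀ : ∀ g : ↥(IA A), I.S.ρ g • S36lib.J.pinfBar (6 * p) = S36lib.J.pinfBar (6 * p) :=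
    fun g => S36lib.J.galAutBar_smul_pinfBar (6 * p) g.1
  have hval : ∀ (c : Fin D.nod.s) (a : Qb), a ≠ 0 → (∀ g : ↥(IA A), I.S.hat g a = a) →
      ∃ m : ℤ, A.valuation a = A.valuation (D.pi c) ^ m := by
    intro c a ha hfix
    exact SEL.exists_valuation_eq_zpow hq.out hA ha (fun σ hσ => by
      have := hfix ⟨σ, hσ⟩
      rwa [I.hat_apply] at this)
  have hsm : D.SmoothSupp (D.nod.chartDiv 1 1) :=
    Fermat.Agent.S33lib.NRed.smoothSupp_Y (Kap.modCtx hqM hA h5).toNCtx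
  have hnn₁ : ∀ P, 0 ≤ D.nod.P₁ P := fun P => hC.P₁_nonneg P
  have hnn₂ : ∀ P, 0 ≤ D.nod.P₂ P := fun P => hC.P₂_nonneg P
  have hch : ∀ P, D.nod.chartDiv 1 1 P = D.nod.P₁ P + D.nod.P₂ P := by
    intro P
    unfold NodalDatum.chartDiv
    simp
  have hP₁ : D.SmoothSupp D.nod.P₁ := by
    intro P hP
    apply hsm P
    rw [hch]
    have h1 := hnn₁ P
    have h2 := hnn₂ P
    omega
  have hP₂ : D.SmoothSupp D.nod.P₂ := by
    intro P hP
    apply hsm P
    rw [hch]
    have h1 := hnn₁ P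
    have h2 := hnn₂ P
    omega
  obtain ⟨hfin, hcard⟩ := hAnn D hC hG I.S hS (S36lib.J.pinfBar (6 * p)) hP₀ hval
    (fun _ _ => rfl) (fun _ _ => rfl) hP₁ hP₂ hn
  -- `s = g + 1`
  have hs : D.nod.s = Kap.modG 6 p + 1 := by
    have := hC.toNCtx.genus_eq
    omega
  -- translation of the fixed points
  let e : {x : JZero (6 * p) // (n : ℤ) • x = 0 ∧ ∀ σ ∈ A.inertiaSubgroupIn ℚ, σ • x = x} ≃
      {x : Pic0 Qb (FBar (6 * p)) // (n : ℤ) • x = 0 ∧ ∀ g : ↥(IA A), I.S.ρ g • x = x} :=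
    Equiv.subtypeEquivRight fun x => by
      constructor
      · rintro ⟨h1, h2⟩
        exact ⟨h1, fun g => (I.smul_eq g x).trans (h2 g.1 g.2)⟩
      · rintro ⟨h1, h2⟩
        exact ⟨h1, fun σ hσ => (I.smul_eq ⟨σ, hσ⟩ x).symm.trans (h2 ⟨σ, hσ⟩)⟩
  refine ⟨Finite.of_equiv _ e.symm, ?_⟩
  rw [Nat.card_congr e]
  calc _ ≤ D.nod.s * n ^ (D.nod.s - 1) := hcard
    _ = _ := by rw [hs, Nat.add_sub_cancel]

end Inst

/-- the `n`-torsion count of `J₀(6p)` over `ℚ̄` (S27) -/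
theorem card_torsion_six (p : ℕ) [NeZero p] {n : ℕ} (hn : 0 < n) :
    Nat.card {x : JZero (6 * p) // n • x = 0} = n ^ (2 * Kap.modG 6 p) := by
  have h := S27lib.T1.countAt_of_td.{0, 0} hn
    (S27lib.T1.t1Stmt_of_td hn (S27lib.tdBelyiStmt n (Kap.modG 6 p) hn))
    (S27lib.tdStmt n (Kap.modG 6 p) hn) Qb (FBar (6 * p)) (S37lib.HeckeInst.jB (6 * p))
    (S37lib.HeckeInst.transcendental_jB (6 * p)) (S37lib.HeckeInst.finiteDimensional_jB (6 * p))
    (Kap.modG_spec 6 p)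
  rw [← h]
  refine Nat.card_congr (Equiv.subtypeEquivRight fun x => ?_)
  rw [Pic0.mem_torsion, natCast_zsmul]

/-- **LOCN (X): the square-root bound at level `6 p`**, from the abstract annulus count. -/
theorem card_fixed_sq_le_six (hAnn : AnnCountStmt) {p : ℕ} (hp : p.Prime) (h5 : 5 ≤ p) {r : ℕ}
    (hr : r.Prime) (hrp : r ≠ p) :
    haveI : NeZero (6 * p) := ⟨by have := hp.pos; omega⟩
    ∃ c : ℕ, ∀ (A : ValuationSubring Qb), A.LiesOverPrime p → ∀ K : ℕ,
      Nat.card {x : JZero (6 * p) // r ^ K • x = 0 ∧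
          ∀ σ ∈ A.inertiaSubgroupIn ℚ, σ • x = x} ^ 2 ≤
        c * Nat.card {x : JZero (6 * p) // r ^ K • x = 0} := by
  haveI : NeZero p := ⟨hp.ne_zero⟩
  haveI : Fact p.Prime := ⟨hp⟩
  have hqM : ¬ p ∣ 6 := by
    intro h
    have h6 : p ≤ 6 := Nat.le_of_dvd (by norm_num) h
    interval_cases p
    · omega
    · exact absurd hp (by decide)
  refine ⟨(Kap.modG 6 p + 1) ^ 2, fun A hA K => ?_⟩
  haveI : CharP (IsLocalRing.ResidueField A) p := Gink.charP_residueField A hp hA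
  have hn : ((r ^ K : ℕ) : IsLocalRing.ResidueField A) ≠ 0 := by
    intro h0
    rw [CharP.cast_eq_zero_iff (IsLocalRing.ResidueField A) p] at h0
    have := hp.dvd_of_dvd_pow h0
    exact hrp ((Nat.prime_dvd_prime_iff_eq hp hr).mp this).symm
  obtain ⟨-, hcard⟩ := card_fixed_le_six hqM hA h5 hAnn hn
  have hpos : 0 < r ^ K := pow_pos hr.pos K
  rw [card_torsion_six p hpos]
  have he : Nat.card {x : JZero (6 * p) // r ^ K • x = 0 ∧
        ∀ σ ∈ A.inertiaSubgroupIn ℚ, σ • x = x} =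
      Nat.card {x : JZero (6 * p) // ((r ^ K : ℕ) : ℤ) • x = 0 ∧
        ∀ σ ∈ A.inertiaSubgroupIn ℚ, σ • x = x} :=
    Nat.card_congr (Equiv.subtypeEquivRight fun x => by rw [natCast_zsmul])
  rw [he]
  calc _ ≤ ((Kap.modG 6 p + 1) * (r ^ K) ^ (Kap.modG 6 p)) ^ 2 := Nat.pow_le_pow_left hcard 2
    _ = _ := by ring

end Fermat.Agent.S15lib.LocN

end
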