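/-
S15lib / LocN / DivOfAnn  (helper1)  — Project E, block LOCN: the chain
`AnnCountStmt` (helper4) ⟹ (X) `card_fixed_sq_le_six` ⟹ (G2) `exists_bound_of_level_six` (helper2)
⟹ (Y) `locNDivStmt_of_bound`, given (U1).
-/
import Mathlib
import Fermat.Agent.S15lib.LocN.Six
import Fermat.Agent.S15lib.LocN.G2Descent
import Fermat.Agent.S15lib.LocN.Div
import Fermat.Agent.S15lib.LocN.Ann.Card

set_option autoImplicit false

namespace Fermat.Agent.S15lib.LocN

/-- **LOCN**: `LocNDivStmt` from (U1) and the abstract annulus count. -/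
theorem locNDivStmt_of_annCount (hU1 : Desc.DivStmt) (hAnn : AnnCountStmt) : Desc.LocNDivStmt :=
  locNDivStmt_of_bound hU1 fun hp h5 _ hr hrp => by
    obtain ⟨c, hc⟩ := card_fixed_sq_le_six hAnn hp h5 hr hrp
    exact exists_bound_of_level_six hp h5 hr hrp c hc

/-- **LOCN, closed** (helper4's `annCountStmt`): `LocNDivStmt` from (U1) alone. -/
theorem locNDivStmt_of_div (hU1 : Desc.DivStmt) : Desc.LocNDivStmt :=
  locNDivStmt_of_annCount hU1 annCountStmt

end Fermat.Agent.S15lib.LocN
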